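import Fermat.Agent.S15.H531.TorsorLocal
import Fermat.Agent.A3.H615.GrFinal
import Fermat.Agent.A3.H319.Level
import Fermat.Agent.S19.H135.Closure
import Fermat.Agent.S29.H126.M3

/-!
# S15 / DESC tower T1 (HOPF-E): the Kummer extension `E_x` has a Hopf model  (helper531)

Blueprint `coord/S15-DESC-blueprint.md` sec. 4.  For a level `N`, a prime `r ∤ N` and a point
`y ∈ J₀(N)(ℚ̄)` such that `x = r y` is rational (fixed by `G_ℚ`), the Kummer extension

    0 → W = J₀(N)[r] → E → ℤ/r → 0        (class `κ(x)`, cocycle `σ ↦ σ y - y`)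

is realised as `EMod N r = Tors N r 1 × ZMod r` (product GROUP) with the twisted Galois action

    actE N r y σ (w, j) = (σ w + j • (σ y - y), j).

**Main theorem** `hopfModel_EMod` : `S19.HopfModel r (EMod N r) (actE N r y)`, i.e. `E` is the
group of `ℚ̄`-points of a finite flat commutative cocommutative Hopf algebra over `ℤ_(r)`,
Galois-equivariantly.  It holds for ALL such `y` (torsion or not) and all primes `r ∤ N`
(`r = 2, 3` included, via the conorm to level `3N`, `2N`).

Route: the points `w + j y` (`0 ≤ j < r`) represent `E`; their sum is the representative of the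
sum plus the constant `ε x`; `torsorLocal` (abstract torsor version of the A3 LOCAL theorem) gives
local coordinates; UNR (`S19.H679`) and ORD (`S19.H15`) turn them into a Hopf model; GR
(`A3.H615.grStatement`) is the good reduction of `X₀(N)`.

Sub-quotients of `E` (the rank-`r²` modules `Q` of tower T2) get Hopf models by
`S19.H135.hopfModel_of_subquotient`.
-/

set_option autoImplicit false

noncomputable section

namespace Fermat.Agent.S15.H531

open Fermat.Agent.S19 ModularCurve AlgebraicCurve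

section Defs

variable (N r : ℕ)

/-- Galois commutes with integer multiples on `J₀(N)`. -/
theorem gal_zsmul (σ : GalQ) (n : ℤ) (y : JZero N) : σ • (n • y) = n • (σ • y) :=
  (DistribSMul.toAddMonoidHom (JZero N) σ).map_zsmul n y

/-- Galois commutes with natural multiples on `J₀(N)`. -/
theorem gal_nsmul (σ : GalQ) (n : ℕ) (y : JZero N) : σ • (n • y) = n • (σ • y) :=
  (DistribSMul.toAddMonoidHom (JZero N) σ).map_nsmul n y

open Classical in
/-- The Kummer cocycle `σ ↦ σ y - y` with values in `J₀(N)[r]` (junk value `0` when `σ` does not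
fix `r y`). -/
def kumE (y : JZero N) (σ : GalQ) : Tors N r 1 :=
  if h : ((r : ℤ) ^ 1) • (σ • y - y) = 0 then
    ⟨σ • y - y, (Submodule.mem_torsionBy_iff _ _).2 h⟩ else 0

variable {N r}

theorem coe_kumE {y : JZero N} {σ : GalQ} (h : σ • ((r : ℤ) • y) = (r : ℤ) • y) :
    ((kumE N r y σ : Tors N r 1) : JZero N) = σ • y - y := by
  have h' : ((r : ℤ) ^ 1) • (σ • y - y) = 0 := by
    rw [pow_one, zsmul_sub, ← gal_zsmul, h, sub_self]
  simp only [kumE, dif_pos h']

theorem kumE_eq_zero {y : JZero N} {σ : GalQ} (h : σ • y = y) : kumE N r y σ = 0 := by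
  unfold kumE
  split_ifs with h'
  · apply Subtype.ext
    show σ • y - y = 0
    rw [h, sub_self]
  · rfl

theorem r_nsmul_tors (w : Tors N r 1) : r • w = 0 := by
  apply Subtype.ext
  have h : ∀ x : JZero N, ((r : ℤ) ^ 1) • x = 0 → r • x = 0 := by
    intro x hx
    rw [pow_one, natCast_zsmul] at hx
    exact hx
  exact h _ ((Submodule.mem_torsionBy_iff _ _).1 w.2)

theorem mod_nsmul_tors (a : ℕ) (w : Tors N r 1) : (a % r) • w = a • w := by
  conv_rhs => rw [← Nat.mod_add_div a r]
  rw [add_nsmul, mul_nsmul, r_nsmul_tors, smul_zero, add_zero]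

theorem val_add_nsmul_tors [NeZero r] (a b : ZMod r) (w : Tors N r 1) :
    (a + b).val • w = a.val • w + b.val • w := by
  rw [ZMod.val_add, mod_nsmul_tors, add_nsmul]

variable (N r)

/-- The underlying group of the Kummer extension: `J₀(N)[r] × ℤ/r`. -/
abbrev EMod : Type := Tors N r 1 × ZMod r

/-- The twisted Galois action on `EMod N r` attached to `y`:
`σ (w, j) = (σ w + j (σ y - y), j)`. -/
def actE (y : JZero N) (σ : GalQ) (e : EMod N r) : EMod N r :=
  (torsAct N r 1 σ e.1 + e.2.val • kumE N r y σ, e.2)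

variable {N r}

@[simp] theorem actE_snd (y : JZero N) (σ : GalQ) (e : EMod N r) : (actE N r y σ e).2 = e.2 := rfl

theorem actE_fst (y : JZero N) (σ : GalQ) (e : EMod N r) :
    (actE N r y σ e).1 = torsAct N r 1 σ e.1 + e.2.val • kumE N r y σ := rfl

/-- `W = J₀(N)[r]` sits in `E` equivariantly. -/
theorem actE_inl [NeZero r] (y : JZero N) (σ : GalQ) (w : Tors N r 1) :
    actE N r y σ (w, 0) = (torsAct N r 1 σ w, 0) := by
  refine Prod.ext ?_ rfl
  rw [actE_fst]
  show torsAct N r 1 σ w + (0 : ZMod r).val • kumE N r y σ = torsAct N r 1 σ w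
  rw [ZMod.val_zero, zero_smul, add_zero]

theorem actE_add [NeZero r] (y : JZero N) (σ : GalQ) (e e' : EMod N r) :
    actE N r y σ (e + e') = actE N r y σ e + actE N r y σ e' := by
  refine Prod.ext ?_ rfl
  show torsAct N r 1 σ (e.1 + e'.1) + (e.2 + e'.2).val • kumE N r y σ =
    (torsAct N r 1 σ e.1 + e.2.val • kumE N r y σ) +
      (torsAct N r 1 σ e'.1 + e'.2.val • kumE N r y σ)
  rw [torsAct_add, val_add_nsmul_tors]
  abel

theorem actE_one (y : JZero N) (e : EMod N r) : actE N r y 1 e = e := by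
  refine Prod.ext ?_ rfl
  show torsAct N r 1 1 e.1 + e.2.val • kumE N r y 1 = e.1
  rw [kumE_eq_zero (one_smul GalQ y), smul_zero, add_zero]
  exact Subtype.ext (one_smul GalQ (e.1 : JZero N))

theorem torsAct_nsmul (σ : GalQ) (n : ℕ) (w : Tors N r 1) :
    torsAct N r 1 σ (n • w) = n • torsAct N r 1 σ w := by
  apply Subtype.ext
  show σ • ((n • w : Tors N r 1) : JZero N) = ((n • torsAct N r 1 σ w : Tors N r 1) : JZero N)
  rw [Submodule.coe_smul_of_tower, Submodule.coe_smul_of_tower, coe_torsAct, gal_nsmul]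

/-- The cocycle relation. -/
theorem kumE_mul {y : JZero N} (hy : ∀ σ : GalQ, σ • ((r : ℤ) • y) = (r : ℤ) • y) (σ τ : GalQ) :
    kumE N r y (σ * τ) = torsAct N r 1 σ (kumE N r y τ) + kumE N r y σ := by
  apply Subtype.ext
  rw [Submodule.coe_add, coe_torsAct, coe_kumE (hy _), coe_kumE (hy _), coe_kumE (hy _),
    mul_smul, smul_sub]
  abel

theorem actE_mul {y : JZero N} (hy : ∀ σ : GalQ, σ • ((r : ℤ) • y) = (r : ℤ) • y) (σ τ : GalQ)
    (e : EMod N r) : actE N r y (σ * τ) e = actE N r y σ (actE N r y τ e) := by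
  refine Prod.ext ?_ rfl
  show torsAct N r 1 (σ * τ) e.1 + e.2.val • kumE N r y (σ * τ) =
    torsAct N r 1 σ (torsAct N r 1 τ e.1 + e.2.val • kumE N r y τ) + e.2.val • kumE N r y σ
  rw [kumE_mul hy, torsAct_add, torsAct_nsmul, smul_add]
  have h : torsAct N r 1 (σ * τ) e.1 = torsAct N r 1 σ (torsAct N r 1 τ e.1) :=
    Subtype.ext (mul_smul σ τ (e.1 : JZero N))
  rw [h]
  abel

/-- The action is additive with open stabilisers. -/
theorem isContAddAction_actE [NeZero N] [NeZero r] {y : JZero N}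
    (hy : ∀ σ : GalQ, σ • ((r : ℤ) • y) = (r : ℤ) • y) :
    IsContAddAction (actE N r y) := by
  refine ⟨actE_one y, actE_mul hy, actE_add y, fun e => ?_⟩
  obtain ⟨L₁, hL₁, h₁⟩ := Fermat.Agent.S29.H126.M3_jZero_smooth N (e.1 : JZero N)
  obtain ⟨L₂, hL₂, h₂⟩ := Fermat.Agent.S29.H126.M3_jZero_smooth N y
  have := hL₁
  have := hL₂
  refine ⟨L₁ ⊔ L₂, IntermediateField.finiteDimensional_sup L₁ L₂, fun σ hσ => ?_⟩
  have hσ₁ : σ • (e.1 : JZero N) = (e.1 : JZero N) :=
    h₁ σ fun a ha => hσ a ((le_sup_left : L₁ ≤ L₁ ⊔ L₂) ha)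
  have hσ₂ : σ • y = y := h₂ σ fun a ha => hσ a ((le_sup_right : L₂ ≤ L₁ ⊔ L₂) ha)
  refine Prod.ext ?_ rfl
  show torsAct N r 1 σ e.1 + e.2.val • kumE N r y σ = e.1
  rw [kumE_eq_zero hσ₂, smul_zero, add_zero]
  exact Subtype.ext hσ₁

end Defs

section Good

variable {N r : ℕ}

/-- The representative `w + j y` of `(w, j)`. -/
def repE (y : JZero N) (e : EMod N r) : JZero N := (e.1 : JZero N) + e.2.val • y

theorem repE_add [NeZero r] (y : JZero N) (e e' : EMod N r) :
    repE y (e + e') = repE y e + repE y e' -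
      ((e.2.val + e'.2.val) / r) • ((r : ℤ) • y) := by
  unfold repE
  have h1 : ((e + e').1 : JZero N) = (e.1 : JZero N) + (e'.1 : JZero N) := rfl
  have h2 : (e + e').2.val = (e.2.val + e'.2.val) % r := ZMod.val_add e.2 e'.2
  have h3 : (e.2.val + e'.2.val) • y =
      ((e.2.val + e'.2.val) % r) • y + ((e.2.val + e'.2.val) / r) • ((r : ℤ) • y) := by
    conv_lhs => rw [← Nat.mod_add_div (e.2.val + e'.2.val) r]
    rw [add_nsmul, natCast_zsmul, mul_nsmul]
  rw [h1, h2]
  have h4 : ((e.2.val + e'.2.val) % r) • y =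
      (e.2.val + e'.2.val) • y - ((e.2.val + e'.2.val) / r) • ((r : ℤ) • y) := by
    rw [h3]; abel
  rw [h4, add_nsmul]
  abel

theorem repE_actE {y : JZero N} (hy : ∀ σ : GalQ, σ • ((r : ℤ) • y) = (r : ℤ) • y) (σ : GalQ)
    (e : EMod N r) : repE y (actE N r y σ e) = σ • repE y e := by
  unfold repE
  rw [actE_snd, actE_fst, Submodule.coe_add, coe_torsAct, Submodule.coe_smul_of_tower,
    coe_kumE (hy σ), smul_add, gal_nsmul, add_assoc, ← nsmul_add, sub_add_cancel]

/-- **HOPF-E at good levels.** -/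
theorem hopfModel_EMod_good [NeZero N] [hr : Fact r.Prime] (hrN : ¬ r ∣ N) (hg : GoodLevel N r)
    (y : JZero N) (hy : ∀ σ : GalQ, σ • ((r : ℤ) • y) = (r : ℤ) • y) :
    HopfModel r (EMod N r) (actE N r y) := by
  have : NeZero r := ⟨hr.out.ne_zero⟩
  obtain ⟨k, _, _, Fk, _, _, 𝓡, hℓ, hI⟩ := Fermat.Agent.A3.H615.grStatement N r hrN hg
  have : Finite (Tors N r 1) := Fermat.Agent.A3.H319.finStatement N r 1
  have : Finite (EMod N r) := inferInstance
  obtain ⟨ι, hι, Ψ, hinj, hint, heq, hadd⟩ :=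
    torsorLocal (K := Qb) (F := modularFunctionFieldBar N) (k := k) (Fk := Fk) 𝓡
      (M := EMod N r) (Q := ZMod r) (AddMonoidHom.snd (Tors N r 1) (ZMod r))
      (repE y) (fun q q' => ((q.val + q'.val) / r) • ((r : ℤ) • y))
      (Γ := {σ : GalQ // IsInertiaAt 𝓡.V σ})
      (fun s => arithmeticGalois (modularFunctionFieldFull N) s.1)
      (fun s => hI s.1 s.2) (fun s => actE N r y s.1)
      (fun e e' => repE_add y e e')
      (fun s e => repE_actE hy s.1 e)
      (fun _ _ => rfl)
      (fun e e' h1 h2 => by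
        have h2' : e.2 = e'.2 := h2
        refine Prod.ext (Subtype.ext ?_) h2'
        unfold repE at h1
        rw [h2'] at h1
        exact add_right_cancel h1)
  have L : LocalCoordDatum r (EMod N r) (actE N r y) :=
    { V := 𝓡.V
      ell_mem := hℓ
      ι := ι
      fin := hι
      Ψ := Ψ
      inj := hinj
      integral := hint
      equivariant := fun σ hσ m i => heq ⟨σ, hσ⟩ m i
      add_mem := hadd }
  obtain ⟨C⟩ := Fermat.Agent.S19.H679.unrStatementH679 r (EMod N r) (actE N r y)
    (isContAddAction_actE hy) L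
  exact Fermat.Agent.S19.H15.ordStatement r (EMod N r) (actE N r y)
    (orderDatum_of_coordDatum (actE_add y) C)

end Good

section Level

open Fermat.Agent.A3.H319

variable {N r : ℕ} [NeZero N]

/-- The conorm on `E`. -/
def pullE (q : ℕ) [NeZero q] : EMod N r →+ EMod (N * q) r where
  toFun e := (torsPull N q r 1 e.1, e.2)
  map_zero' := Prod.ext (map_zero (torsPull N q r 1)) rfl
  map_add' a b := Prod.ext (map_add (torsPull N q r 1) a.1 b.1) rfl

theorem pullE_apply {q : ℕ} [NeZero q] (e : EMod N r) :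
    pullE q e = (torsPull N q r 1 e.1, e.2) := rfl

theorem pullE_fst {q : ℕ} [NeZero q] (e : EMod N r) :
    (pullE q e).1 = torsPull N q r 1 e.1 := congrArg Prod.fst (pullE_apply e)

theorem pullE_snd {q : ℕ} [NeZero q] (e : EMod N r) : (pullE q e).2 = e.2 :=
  congrArg Prod.snd (pullE_apply e)

theorem pullE_injective {q : ℕ} [NeZero q] (hq : q.Prime) (hr : r.Prime) (hrq : r ≠ q) :
    Function.Injective (pullE (N := N) (r := r) q) := by
  intro e e' h
  have h1 : (pullE q e).1 = (pullE q e').1 := by rw [h]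
  have h2 : (pullE q e).2 = (pullE q e').2 := by rw [h]
  rw [pullE_fst, pullE_fst] at h1
  rw [pullE_snd, pullE_snd] at h2
  exact Prod.ext (torsPull_injective N q hq r 1 hr hrq h1) h2

theorem kumE_levelPull {q : ℕ} [NeZero q] {y : JZero N}
    (hy : ∀ σ : GalQ, σ • ((r : ℤ) • y) = (r : ℤ) • y)
    (hy' : ∀ σ : GalQ, σ • ((r : ℤ) • levelPull N q y) = (r : ℤ) • levelPull N q y) (σ : GalQ) :
    torsPull N q r 1 (kumE N r y σ) = kumE (N * q) r (levelPull N q y) σ := by
  apply Subtype.ext
  rw [coe_torsPull, coe_kumE (hy σ), coe_kumE (hy' σ), map_sub, levelPull_smul]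

theorem levelPull_fixed {q : ℕ} [NeZero q] {y : JZero N}
    (hy : ∀ σ : GalQ, σ • ((r : ℤ) • y) = (r : ℤ) • y) (σ : GalQ) :
    σ • ((r : ℤ) • levelPull N q y) = (r : ℤ) • levelPull N q y := by
  rw [← map_zsmul, ← levelPull_smul, hy σ]

theorem pullE_actE {q : ℕ} [NeZero q] {y : JZero N}
    (hy : ∀ σ : GalQ, σ • ((r : ℤ) • y) = (r : ℤ) • y) (σ : GalQ) (e : EMod N r) :
    pullE q (actE N r y σ e) = actE (N * q) r (levelPull N q y) σ (pullE q e) := by
  refine Prod.ext ?_ ?_
  · rw [pullE_fst, actE_fst, actE_fst, pullE_fst, pullE_snd, map_add, map_nsmul,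
      torsPull_torsAct, kumE_levelPull hy (levelPull_fixed hy)]
  · rw [pullE_snd, actE_snd, actE_snd, pullE_snd]

/-- **HOPF-E** (tower T1 of the DESC blueprint): for every prime `r ∤ N` and every `y` with
`r y` rational, the Kummer extension `E = J₀(N)[r] × ℤ/r` with the action twisted by the cocycle
`σ ↦ σ y - y` has a Hopf model over `ℤ_(r)`. -/
theorem hopfModel_EMod [hr : Fact r.Prime] (hrN : ¬ r ∣ N)
    (y : JZero N) (hy : ∀ σ : GalQ, σ • ((r : ℤ) • y) = (r : ℤ) • y) :
    HopfModel r (EMod N r) (actE N r y) := by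
  have hprime : r.Prime := hr.out
  by_cases hg : GoodLevel N r
  · exact hopfModel_EMod_good hrN hg y hy
  · have h5 : ¬ 5 ≤ r := fun h => hg (Or.inl h)
    have hr23 : r = 2 ∨ r = 3 := by
      have h2 := hprime.two_le
      have hlt : r < 5 := not_le.mp h5
      interval_cases r
      · exact Or.inl rfl
      · exact Or.inr rfl
      · exact absurd hprime (by decide)
    rcases hr23 with rfl | rfl
    · -- `r = 2`, auxiliary prime `3`
      have hN' : ¬ 2 ∣ N * 3 := by
        intro h
        rcases (Nat.Prime.dvd_mul Nat.prime_two).mp h with h | h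
        · exact hrN h
        · exact absurd h (by decide)
      have h' := hopfModel_EMod_good (N := N * 3) hN'
        (Or.inr (Or.inr ⟨rfl, dvd_mul_left 3 N⟩)) (levelPull N 3 y) (levelPull_fixed hy)
      exact Fermat.Agent.S19.H135.hopfModel_of_injective Fermat.Agent.S19.H15.ordStatement h' (pullE 3)
        (pullE_injective Nat.prime_three Nat.prime_two (by decide)) (fun σ e => pullE_actE hy σ e)
    · -- `r = 3`, auxiliary prime `2`
      have hN' : ¬ 3 ∣ N * 2 := by
        intro h
        rcases (Nat.Prime.dvd_mul Nat.prime_three).mp h with h | h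
        · exact hrN h
        · exact absurd h (by decide)
      have h' := hopfModel_EMod_good (N := N * 2) hN'
        (Or.inr (Or.inl ⟨rfl, dvd_mul_left 2 N⟩)) (levelPull N 2 y) (levelPull_fixed hy)
      exact Fermat.Agent.S19.H135.hopfModel_of_injective Fermat.Agent.S19.H15.ordStatement h' (pullE 2)
        (pullE_injective Nat.prime_two Nat.prime_three (by decide)) (fun σ e => pullE_actE hy σ e)

end Level

end Fermat.Agent.S15.H531
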