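import Fermat.Agent.S15.H531.Piece

/-!
# S15 / DESC: the glue leaves PEU1J and PEUwJ  (helper531)

    peu1J_of_piece      : PieceStatement → T2OneStatement   → Peu1JStatement
    peuOmegaJ_of_piece  : PieceStatement → T2OmegaStatement → PeuOmegaJStatement
    peu1J_of_T1_T2      : T1Statement → T2OneStatement   → Peu1JStatement
    peuOmegaJ_of_T1_T2  : T1Statement → T2OmegaStatement → PeuOmegaJStatement

(`PieceStatement` = the rank-`r²` sub-quotients of the Kummer extension, `Piece.lean`.)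
-/

set_option autoImplicit false

noncomputable section

namespace Fermat.Agent.S15.H531

open Fermat.Agent.S19 Fermat.Agent.S15.H975 ModularCurve

section Cyclic

variable {p : ℕ}

/-- In a piece of prime index there is an element outside `F'`. -/
theorem exists_not_mem_of_relIndex {r : ℕ} (hr : r.Prime) {F' F : AddSubgroup (JZero p)}
    (hidx : F'.relIndex F = r) : ∃ f ∈ F, f ∉ F' := by
  by_contra h
  have h : ∀ f ∈ F, f ∈ F' := fun f hf => by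
    by_contra hf'
    exact h ⟨f, hf, hf'⟩
  have h1 : F'.relIndex F = 1 := AddSubgroup.relIndex_eq_one.2 h
  rw [hidx] at h1
  exact hr.one_lt.ne' h1

/-- A piece of prime index `r` is generated modulo `F'` by any element outside `F'`. -/
theorem exists_nsmul_sub_mem {r : ℕ} (hr : r.Prime) {F' F : AddSubgroup (JZero p)}
    (hF : F ≤ tors p r) (hidx : F'.relIndex F = r) {e : JZero p} (he : e ∈ F) (he' : e ∉ F')
    {f : JZero p} (hf : f ∈ F) : ∃ i : ℕ, f - i • e ∈ F' := by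
  have : Fact r.Prime := ⟨hr⟩
  have hcard : Nat.card (↥F ⧸ F'.addSubgroupOf F) = r := by
    rw [← AddSubgroup.index_eq_card]
    exact hidx
  have hne : (QuotientAddGroup.mk (⟨e, he⟩ : ↥F) : ↥F ⧸ F'.addSubgroupOf F) ≠ 0 := by
    intro h0
    rw [QuotientAddGroup.eq_zero_iff] at h0
    exact he' h0
  have htop := zmultiples_eq_top_of_prime_card hcard hne
  have hmem : (QuotientAddGroup.mk (⟨f, hf⟩ : ↥F) : ↥F ⧸ F'.addSubgroupOf F) ∈
      AddSubgroup.zmultiples (QuotientAddGroup.mk (⟨e, he⟩ : ↥F) : ↥F ⧸ F'.addSubgroupOf F) := by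
    rw [htop]
    exact AddSubgroup.mem_top _
  obtain ⟨k, hk⟩ := AddSubgroup.mem_zmultiples_iff.1 hmem
  have h1 : (QuotientAddGroup.mk ((⟨f, hf⟩ : ↥F) - k • (⟨e, he⟩ : ↥F)) :
      ↥F ⧸ F'.addSubgroupOf F) = 0 := by
    rw [QuotientAddGroup.mk_sub, QuotientAddGroup.mk_zsmul, hk, sub_self]
  rw [QuotientAddGroup.eq_zero_iff] at h1
  have h2 : f - k • e ∈ F' := h1
  have hre : r • e = 0 := hF he
  have hr0 : (r : ℤ) ≠ 0 := Int.natCast_ne_zero.2 hr.ne_zero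
  have hk' : (k % (r : ℤ)).toNat • e = k • e := by
    have h3 : ((k % (r : ℤ)).toNat : ℤ) = k % (r : ℤ) :=
      Int.toNat_of_nonneg (Int.emod_nonneg k hr0)
    have h4 : ((r : ℤ) * (k / (r : ℤ))) • e = 0 := by
      rw [mul_comm, mul_zsmul, natCast_zsmul, hre, zsmul_zero]
    rw [← natCast_zsmul, h3]
    conv_rhs => rw [← Int.emod_add_mul_ediv k (r : ℤ), add_zsmul, h4, add_zero]
  exact ⟨(k % (r : ℤ)).toNat, by rw [hk']; exact h2⟩

end Cyclic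

/-- **PEU1J** from PIECE and T2-1. -/
theorem peu1J_of_piece (hP : PieceStatement) (hT2 : T2OneStatement) : Peu1JStatement := by
  intro p _ hp r hr hrp hr2 A hA τ hτ F' F hF'F hF hs' hs hidx htriv y hy
  obtain ⟨Q, iQ, fQ, act, κ, yQ, hcont, hhopf, hker, hry, hind, hgen, hactκ, hacty⟩ :=
    hP p hp r hr hrp F' F hF'F hF hs' hs y hy
  obtain ⟨e, he, he'⟩ := exists_not_mem_of_relIndex hr hidx
  -- `κ` of a difference
  have hκeq : ∀ (f : ↥F) (i : ℕ), (f : JZero p) - i • e ∈ F' → κ f = i • κ ⟨e, he⟩ := by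
    intro f i h
    have h1 : κ (f - i • ⟨e, he⟩) = 0 := (hker _).2 h
    rw [map_sub, map_nsmul, sub_eq_zero] at h1
    exact h1
  have hcyc : ∀ f : ↥F, ∃ i : ℕ, κ f = i • κ ⟨e, he⟩ := by
    intro f
    obtain ⟨i, hi⟩ := exists_nsmul_sub_mem hr hF hidx he he' f.2
    exact ⟨i, hκeq f i hi⟩
  have hre : r • κ ⟨e, he⟩ = 0 := by
    rw [← map_nsmul]
    have h0 : r • (⟨e, he⟩ : ↥F) = 0 := Subtype.ext (hF he)
    rw [h0, map_zero]
  have hgen' : ∀ q : Q, ∃ i j : ℕ, q = i • κ ⟨e, he⟩ + j • yQ := by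
    intro q
    obtain ⟨j, f, rfl⟩ := hgen q
    obtain ⟨i, hi⟩ := hcyc f
    exact ⟨i, j, by rw [hi, add_comm]⟩
  have htr : ∀ σ : Gal, act σ (κ ⟨e, he⟩) = κ ⟨e, he⟩ := by
    intro σ
    rw [hactκ σ ⟨e, he⟩ ⟨σ • e, hs σ e he⟩ rfl]
    have h1 : κ (⟨σ • e, hs σ e he⟩ - ⟨e, he⟩) = 0 := (hker _).2 (htriv σ e he)
    rw [map_sub, sub_eq_zero] at h1
    exact h1
  have hyact : ∀ σ : Gal, ∃ m : ℕ, act σ yQ = yQ + m • κ ⟨e, he⟩ := by
    intro σ
    obtain ⟨m, hm⟩ := hcyc ⟨σ • y - y, hy.2 σ⟩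
    exact ⟨m, by rw [hacty σ ⟨σ • y - y, hy.2 σ⟩ rfl, hm]⟩
  have hfinal := hT2 r hr hr2 Q iQ fQ act hcont hhopf (κ ⟨e, he⟩) yQ hre hry hgen' htr hyact
    A hA τ hτ
  rw [hacty τ ⟨τ • y - y, hy.2 τ⟩ rfl] at hfinal
  have h0 : κ ⟨τ • y - y, hy.2 τ⟩ = 0 := by
    have h1 := congrArg (fun t => t - yQ) hfinal
    simpa using h1
  exact (hker _).1 h0

/-- **PEUwJ** from PIECE and T2-ω. -/
theorem peuOmegaJ_of_piece (hP : PieceStatement) (hT2 : T2OmegaStatement) :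
    PeuOmegaJStatement := by
  intro p _ hp r hr hrp F' F hF'F hF hs' hs hidx ζ hζ hω e he he' y hy a α ha hα hkum
  obtain ⟨Q, iQ, fQ, act, κ, yQ, hcont, hhopf, hker, hry, hind, hgen, hactκ, hacty⟩ :=
    hP p hp r hr hrp F' F hF'F hF hs' hs y hy
  have hκeq : ∀ (f : ↥F) (i : ℕ), (f : JZero p) - i • e ∈ F' → κ f = i • κ ⟨e, he⟩ := by
    intro f i h
    have h1 : κ (f - i • ⟨e, he⟩) = 0 := (hker _).2 h
    rw [map_sub, map_nsmul, sub_eq_zero] at h1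
    exact h1
  have hcyc : ∀ f : ↥F, ∃ i : ℕ, κ f = i • κ ⟨e, he⟩ := by
    intro f
    obtain ⟨i, hi⟩ := exists_nsmul_sub_mem hr hF hidx he he' f.2
    exact ⟨i, hκeq f i hi⟩
  have hre : r • κ ⟨e, he⟩ = 0 := by
    rw [← map_nsmul]
    have h0 : r • (⟨e, he⟩ : ↥F) = 0 := Subtype.ext (hF he)
    rw [h0, map_zero]
  have hne : κ ⟨e, he⟩ ≠ 0 := fun h0 => he' ((hker _).1 h0)
  have hind' : ∀ j : ℕ, j • yQ ∈ AddSubgroup.zmultiples (κ ⟨e, he⟩) → r ∣ j := by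
    intro j hj
    obtain ⟨k, hk⟩ := AddSubgroup.mem_zmultiples_iff.1 hj
    refine hind j (k • ⟨e, he⟩) ?_
    rw [map_zsmul, hk]
  have hgen' : ∀ q : Q, ∃ i j : ℕ, q = i • κ ⟨e, he⟩ + j • yQ := by
    intro q
    obtain ⟨j, f, rfl⟩ := hgen q
    obtain ⟨i, hi⟩ := hcyc f
    exact ⟨i, j, by rw [hi, add_comm]⟩
  have hchar : ∀ (σ : Gal) (k : ℕ), σ ζ = ζ ^ k → act σ (κ ⟨e, he⟩) = k • κ ⟨e, he⟩ := by
    intro σ k hk
    rw [hactκ σ ⟨e, he⟩ ⟨σ • e, hs σ e he⟩ rfl]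
    exact hκeq _ k (hω σ k hk e he)
  have hyact : ∀ (σ : Gal) (m : ℕ), σ α = ζ ^ m * α → act σ yQ = yQ + m • κ ⟨e, he⟩ := by
    intro σ m hm
    rw [hacty σ ⟨σ • y - y, hy.2 σ⟩ rfl, hκeq _ m (hkum σ m hm)]
  exact hT2 r hr Q iQ fQ act hcont hhopf (κ ⟨e, he⟩) yQ hre hry hne hind' hgen' ζ hζ hchar
    a α ha hα hyact

/-- **PEU1J** from T1 and T2-1. -/
theorem peu1J_of_T1_T2 (hT1 : T1Statement) (hT2 : T2OneStatement) : Peu1JStatement :=
  peu1J_of_piece (piece_of_T1 hT1) hT2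

/-- **PEUwJ** from T1 and T2-ω. -/
theorem peuOmegaJ_of_T1_T2 (hT1 : T1Statement) (hT2 : T2OmegaStatement) : PeuOmegaJStatement :=
  peuOmegaJ_of_piece (piece_of_T1 hT1) hT2

end Fermat.Agent.S15.H531
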