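import Fermat.Agent.S15.H975.DescSpec
import Fermat.Agent.S19.H135.Closure
import Fermat.Agent.S19.H15.Ord

/-!
# S15 / DESC: the rank-`r²` pieces of the Kummer extension  (helper531)

Glue between the leaf T1 (`H975.T1Statement`, the Kummer extension `E` of `ℤ/r` by `J[r]` has a
Hopf model) and the leaves T2 (rank `r²` Hopf orders): for Galois-stable `F' ≤ F ≤ J[r]` and
`y ∈ Y(F)` the sub-quotient

    Q = (F + ℤ y') / F'        of `E`

has a Hopf model (`S19.H135.hopfModel_of_subquotient`), with the explicit description needed by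
`T2OneStatement` / `T2OmegaStatement`.

* `SubQuot`, `subQuotAct`: sub-quotients of an abstract Galois module;
* `isContAddAction_subQuot`, `hopfModel_subQuot`;
* `piece_of_T1 : T1Statement → PieceStatement`;
* `peu1J_of_piece : PieceStatement → T2OneStatement → Peu1JStatement`;
* `peuOmegaJ_of_piece : PieceStatement → T2OmegaStatement → PeuOmegaJStatement`.
-/

set_option autoImplicit false

noncomputable section

namespace Fermat.Agent.S15.H531

open Fermat.Agent.S19 Fermat.Agent.S15.H975 ModularCurve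

section SubQuot

variable {M : Type} [AddCommGroup M] (act : GalQ → M → M)

/-- The restriction of the action to a stable subgroup. -/
def subAct (E : AddSubgroup M) (hE : ∀ σ, ∀ m ∈ E, act σ m ∈ E) (σ : GalQ) (m : ↥E) : ↥E :=
  ⟨act σ m, hE σ m m.2⟩

/-- The sub-quotient `E / (N ∩ E)`. -/
abbrev SubQuot (E N : AddSubgroup M) : Type := ↥E ⧸ N.addSubgroupOf E

/-- The restricted action as a homomorphism. -/
def subActHom (hadd : ∀ σ m m', act σ (m + m') = act σ m + act σ m')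
    (E : AddSubgroup M) (hE : ∀ σ, ∀ m ∈ E, act σ m ∈ E) (σ : GalQ) : ↥E →+ ↥E :=
  AddMonoidHom.mk' (subAct act E hE σ) fun a b => Subtype.ext (hadd σ a b)

/-- The induced action on a sub-quotient. -/
def subQuotAct (hadd : ∀ σ m m', act σ (m + m') = act σ m + act σ m')
    (E N : AddSubgroup M) (hE : ∀ σ, ∀ m ∈ E, act σ m ∈ E) (hN : ∀ σ, ∀ m ∈ N, act σ m ∈ N)
    (σ : GalQ) : SubQuot E N → SubQuot E N :=
  QuotientAddGroup.map (N.addSubgroupOf E) (N.addSubgroupOf E) (subActHom act hadd E hE σ)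
    (fun m hm => hN σ m hm)

theorem subQuotAct_mk (hadd : ∀ σ m m', act σ (m + m') = act σ m + act σ m')
    (E N : AddSubgroup M) (hE : ∀ σ, ∀ m ∈ E, act σ m ∈ E) (hN : ∀ σ, ∀ m ∈ N, act σ m ∈ N)
    (σ : GalQ) (m : ↥E) :
    subQuotAct act hadd E N hE hN σ (QuotientAddGroup.mk m) =
      QuotientAddGroup.mk (subAct act E hE σ m) := rfl

variable {act}

theorem isContAddAction_subQuot (h : IsContAddAction act)
    (E N : AddSubgroup M) (hE : ∀ σ, ∀ m ∈ E, act σ m ∈ E) (hN : ∀ σ, ∀ m ∈ N, act σ m ∈ N) :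
    IsContAddAction (subQuotAct act h.act_add E N hE hN) := by
  refine ⟨?_, ?_, ?_, ?_⟩
  · intro q
    obtain ⟨m, rfl⟩ := QuotientAddGroup.mk_surjective q
    rw [subQuotAct_mk]
    exact congrArg _ (Subtype.ext (h.act_one m))
  · intro σ τ q
    obtain ⟨m, rfl⟩ := QuotientAddGroup.mk_surjective q
    rw [subQuotAct_mk, subQuotAct_mk, subQuotAct_mk]
    exact congrArg _ (Subtype.ext (h.act_mul σ τ m))
  · intro σ q q'
    exact map_add (QuotientAddGroup.map (N.addSubgroupOf E) (N.addSubgroupOf E)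
      (subActHom act h.act_add E hE σ) (fun m hm => hN σ m hm)) q q'
  · intro q
    obtain ⟨m, rfl⟩ := QuotientAddGroup.mk_surjective q
    obtain ⟨L, hL, hfix⟩ := h.cont (m : M)
    refine ⟨L, hL, fun σ hσ => ?_⟩
    rw [subQuotAct_mk]
    exact congrArg _ (Subtype.ext (hfix σ hσ))

theorem hopfModel_subQuot {ℓ : ℕ} [Fact ℓ.Prime] (h : IsContAddAction act)
    (hH : HopfModel ℓ M act)
    (E N : AddSubgroup M) (hE : ∀ σ, ∀ m ∈ E, act σ m ∈ E) (hN : ∀ σ, ∀ m ∈ N, act σ m ∈ N) :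
    HopfModel ℓ (SubQuot E N) (subQuotAct act h.act_add E N hE hN) :=
  Fermat.Agent.S19.H135.hopfModel_of_subquotient Fermat.Agent.S19.H15.ordStatement hH
    (act₁ := subAct act E hE) E.subtype Subtype.val_injective (fun _ _ => rfl)
    (QuotientAddGroup.mk' (N.addSubgroupOf E)) (QuotientAddGroup.mk'_surjective _)
    (fun _ _ => rfl)

end SubQuot

/-- **PIECE**: for Galois-stable `F' ≤ F ≤ J[r]` and `y ∈ Y(F)`, the sub-quotient
`Q = (F + ℤ y') / F'` of the Kummer extension, with its Hopf model. -/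
def PieceStatement : Prop :=
  ∀ (p : ℕ) [NeZero p], p.Prime → ∀ r : ℕ, r.Prime → r ≠ p →
    ∀ F' F : AddSubgroup (JZero p), F' ≤ F → F ≤ tors p r → IsStable p F' → IsStable p F →
    ∀ y ∈ sel p r F,
      ∃ (Q : Type) (_ : AddCommGroup Q) (_ : Finite Q) (act : Gal → Q → Q) (κ : ↥F →+ Q)
        (yQ : Q),
        IsContAddAction act ∧ HopfModel r Q act ∧
        (∀ f : ↥F, κ f = 0 ↔ (f : JZero p) ∈ F') ∧ r • yQ = 0 ∧
        (∀ (j : ℕ) (f : ↥F), j • yQ = κ f → r ∣ j) ∧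
        (∀ q : Q, ∃ (j : ℕ) (f : ↥F), q = j • yQ + κ f) ∧
        (∀ (σ : Gal) (f f' : ↥F), (f' : JZero p) = σ • (f : JZero p) → act σ (κ f) = κ f') ∧
        ∀ (σ : Gal) (f : ↥F), (f : JZero p) = σ • y - y → act σ yQ = yQ + κ f

/-- T1 ⟹ PIECE. -/
theorem piece_of_T1 (hT1 : T1Statement) : PieceStatement := by
  intro p _ hp r hr hrp F' F hF'F hF hs' hs y hy
  have : Fact r.Prime := ⟨hr⟩
  obtain ⟨M, iM, fM, act, ι, y', hcont, hhopf, hinj, hry, hrange, hgen, hactι, hacty⟩ :=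
    hT1 p hp r hr hrp y hy.1
  -- notation
  set ιF : ↥F →+ M := ι.comp (AddSubgroup.inclusion hF) with hιFdef
  have hιF : Function.Injective ιF := hinj.comp (AddSubgroup.inclusion_injective hF)
  set E : AddSubgroup M := ιF.range ⊔ AddSubgroup.zmultiples y' with hEdef
  set N : AddSubgroup M := (F'.addSubgroupOf F).map ιF with hNdef
  have hιE : ∀ f : ↥F, ιF f ∈ E := fun f => AddSubgroup.mem_sup_left ⟨f, rfl⟩
  have hyE : y' ∈ E := AddSubgroup.mem_sup_right (AddSubgroup.mem_zmultiples y')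
  -- the action
  have hactF : ∀ (σ : Gal) (f : ↥F), act σ (ιF f) = ιF ⟨σ • (f : JZero p), hs σ f f.2⟩ :=
    fun σ f => hactι σ _ _ rfl
  have hactY : ∀ σ : Gal, act σ y' = y' + ιF ⟨σ • y - y, hy.2 σ⟩ := fun σ => hacty σ _ rfl
  have hzs : ∀ (σ : Gal) (k : ℤ) (m : M), act σ (k • m) = k • act σ m := fun σ k m =>
    (AddMonoidHom.mk' (act σ) (hcont.act_add σ)).map_zsmul k m
  have hns : ∀ (σ : Gal) (k : ℕ) (m : M), act σ (k • m) = k • act σ m := fun σ k m =>
    (AddMonoidHom.mk' (act σ) (hcont.act_add σ)).map_nsmul k m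
  have hE : ∀ σ, ∀ m ∈ E, act σ m ∈ E := by
    intro σ m hm
    obtain ⟨a, ⟨f, rfl⟩, b, hb, rfl⟩ := AddSubgroup.mem_sup.1 hm
    obtain ⟨k, rfl⟩ := AddSubgroup.mem_zmultiples_iff.1 hb
    rw [hcont.act_add, hactF, hzs, hactY]
    exact E.add_mem (hιE _) (E.zsmul_mem (E.add_mem hyE (hιE _)) k)
  have hN : ∀ σ, ∀ m ∈ N, act σ m ∈ N := by
    rintro σ _ ⟨f, hf, rfl⟩
    rw [hactF]
    exact ⟨⟨σ • (f : JZero p), hs σ f f.2⟩, hs' σ f hf, rfl⟩
  have hmemN : ∀ f : ↥F, ιF f ∈ N ↔ (f : JZero p) ∈ F' := by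
    intro f
    constructor
    · rintro ⟨f', hf', h⟩
      rw [← hιF h]
      exact hf'
    · intro h
      exact ⟨f, h, rfl⟩
  -- the sub-quotient
  let κ : ↥F →+ SubQuot E N :=
    (QuotientAddGroup.mk' (N.addSubgroupOf E)).comp (ιF.codRestrict E hιE)
  have hκ : ∀ f : ↥F, κ f = QuotientAddGroup.mk (⟨ιF f, hιE f⟩ : ↥E) := fun _ => rfl
  let yQ : SubQuot E N := QuotientAddGroup.mk (⟨y', hyE⟩ : ↥E)
  have hmk0 : ∀ m : ↥E, (QuotientAddGroup.mk m : SubQuot E N) = 0 ↔ (m : M) ∈ N := by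
    intro m
    rw [QuotientAddGroup.eq_zero_iff]
    exact AddSubgroup.mem_addSubgroupOf
  have hfin : Finite (SubQuot E N) := inferInstance
  refine ⟨SubQuot E N, inferInstance, hfin, subQuotAct act hcont.act_add E N hE hN, κ, yQ,
    isContAddAction_subQuot hcont E N hE hN, hopfModel_subQuot hcont hhopf E N hE hN,
    ?_, ?_, ?_, ?_, ?_, ?_⟩
  · intro f
    rw [hκ, hmk0]
    exact hmemN f
  · show r • (QuotientAddGroup.mk (⟨y', hyE⟩ : ↥E) : SubQuot E N) = 0
    have h1 : r • (⟨y', hyE⟩ : ↥E) = 0 := Subtype.ext hry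
    rw [← QuotientAddGroup.mk_nsmul, h1]
    rfl
  · intro j f h
    have h1 : (QuotientAddGroup.mk (j • (⟨y', hyE⟩ : ↥E) - ⟨ιF f, hιE f⟩) : SubQuot E N) = 0 := by
      rw [QuotientAddGroup.mk_sub, QuotientAddGroup.mk_nsmul, ← hκ, ← h]
      exact sub_self _
    rw [hmk0] at h1
    obtain ⟨f', hf', h2⟩ := h1
    have h3 : j • y' = ιF (f' + f) := by
      rw [map_add, h2]
      show j • y' = (j • y' - ιF f) + ιF f
      abel
    exact hrange j ⟨_, h3.symm⟩
  · intro q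
    obtain ⟨m, rfl⟩ := QuotientAddGroup.mk_surjective q
    obtain ⟨a, ⟨f, hf⟩, b, hb, hab⟩ := AddSubgroup.mem_sup.1 m.2
    obtain ⟨k, hk⟩ := AddSubgroup.mem_zmultiples_iff.1 hb
    have hr0 : (r : ℤ) ≠ 0 := Int.natCast_ne_zero.2 hr.ne_zero
    have hk' : (k % (r : ℤ)).toNat • y' = k • y' := by
      have h1 : ((k % (r : ℤ)).toNat : ℤ) = k % (r : ℤ) :=
        Int.toNat_of_nonneg (Int.emod_nonneg k hr0)
      have h2 : ((r : ℤ) * (k / (r : ℤ))) • y' = 0 := by
        rw [mul_comm, mul_smul, natCast_zsmul, hry, smul_zero]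
      rw [← natCast_zsmul, h1]
      conv_rhs => rw [← Int.emod_add_mul_ediv k (r : ℤ), add_smul, h2, add_zero]
    refine ⟨(k % (r : ℤ)).toNat, f, ?_⟩
    have h2 : m = (k % (r : ℤ)).toNat • (⟨y', hyE⟩ : ↥E) + ⟨ιF f, hιE f⟩ := by
      apply Subtype.ext
      show (m : M) = (k % (r : ℤ)).toNat • y' + ιF f
      rw [hk', hk, hf, add_comm, hab]
    rw [h2]
    rfl
  · intro σ f f' h
    rw [hκ, hκ, subQuotAct_mk]
    refine congrArg _ (Subtype.ext ?_)
    show act σ (ιF f) = ιF f'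
    rw [hactF]
    exact congrArg ιF (Subtype.ext h.symm)
  · intro σ f h
    rw [hκ]
    show subQuotAct act hcont.act_add E N hE hN σ (QuotientAddGroup.mk (⟨y', hyE⟩ : ↥E)) = _
    rw [subQuotAct_mk]
    show (QuotientAddGroup.mk (subAct act E hE σ ⟨y', hyE⟩) : SubQuot E N) =
      QuotientAddGroup.mk ((⟨y', hyE⟩ : ↥E) + ⟨ιF f, hιE f⟩)
    refine congrArg _ (Subtype.ext ?_)
    show act σ y' = y' + ιF f
    rw [hactY]
    exact congrArg (fun t => y' + ιF t) (Subtype.ext h.symm)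

end Fermat.Agent.S15.H531
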