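import Fermat.Agent.S15.H531.HopfE
import Fermat.Agent.S15.H975.DescSpec

/-!
# S15 / DESC leaf T1 (HOPF-E) in the frozen shape of `S15/H975/DescSpec.lean`  (helper531)

`t1Statement : H975.T1Statement`: for primes `r ≠ p` and `y ∈ J₀(p)` with `r y` rational, the
Kummer extension `E = J₀(p)[r] × ℤ/r` (action twisted by the cocycle `σ ↦ σ y - y`) has a Hopf
model over `ℤ_(r)`; `ι w = (w, 0)`, `y' = (0, 1)`.

Thin adapter over `hopfModel_EMod` (`HopfE.lean`).
-/

set_option autoImplicit false

noncomputable section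

namespace Fermat.Agent.S15.H531

open Fermat.Agent.S19 ModularCurve AlgebraicCurve

section Adapter

variable {N r : ℕ}

/-- Membership in `Tors N r 1` from `r • w = 0`. -/
theorem mem_Tors_of_nsmul {w : JZero N} (h : r • w = 0) :
    w ∈ Submodule.torsionBy ℤ (JZero N) ((r : ℤ) ^ 1) := by
  refine (Submodule.mem_torsionBy_iff _ _).2 ?_
  rw [pow_one, natCast_zsmul]
  exact h

variable [NeZero N]

/-- The inclusion of `J₀(N)[r]` (in the shape of `H975.tors`) into `E`. -/
def inclE (N r : ℕ) [NeZero N] : ↥(Fermat.Agent.S15.H975.tors N r) →+ EMod N r where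
  toFun w := (⟨(w : JZero N), mem_Tors_of_nsmul w.2⟩, 0)
  map_zero' := rfl
  map_add' _ _ := Prod.ext rfl (add_zero (0 : ZMod r)).symm

theorem inclE_fst (w : ↥(Fermat.Agent.S15.H975.tors N r)) :
    (((inclE N r w).1 : Tors N r 1) : JZero N) = (w : JZero N) := rfl

theorem inclE_snd (w : ↥(Fermat.Agent.S15.H975.tors N r)) : (inclE N r w).2 = 0 := rfl

theorem inclE_injective : Function.Injective (inclE N r) := by
  intro a b h
  apply Subtype.ext
  have h1 : (((inclE N r a).1 : Tors N r 1) : JZero N) = (((inclE N r b).1 : Tors N r 1) : JZero N) := by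
    rw [h]
  exact h1

end Adapter

/-- **T1 (HOPF-E)**, frozen shape. -/
theorem t1Statement : Fermat.Agent.S15.H975.T1Statement := by
  intro p _ hp r hr hrp y hy
  have : Fact r.Prime := ⟨hr⟩
  have : NeZero r := ⟨hr.ne_zero⟩
  have : Fact (1 < r) := ⟨hr.one_lt⟩
  have hrN : ¬ r ∣ p := fun h => hrp ((Nat.prime_dvd_prime_iff_eq hr hp).1 h)
  have hy' : ∀ σ : GalQ, σ • ((r : ℤ) • y) = (r : ℤ) • y := by
    intro σ
    rw [natCast_zsmul]
    exact hy σ
  have : Finite (Tors p r 1) := Fermat.Agent.A3.H319.finStatement p r 1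
  have : Finite (EMod p r) := inferInstance
  refine ⟨EMod p r, inferInstance, inferInstance, actE p r y, inclE p r,
    ((0 : Tors p r 1), (1 : ZMod r)), isContAddAction_actE hy', hopfModel_EMod hrN y hy',
    inclE_injective, ?_, ?_, ?_, ?_, ?_⟩
  · -- `r • y' = 0`
    refine Prod.ext (smul_zero r) ?_
    show r • (1 : ZMod r) = 0
    rw [nsmul_eq_mul, mul_one]
    exact ZMod.natCast_self r
  · -- `j • y' ∈ range ι → r ∣ j`
    rintro j ⟨w, hw⟩
    have h2 : (j • ((0 : Tors p r 1), (1 : ZMod r))).2 = 0 := by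
      rw [← hw]; rfl
    have h3 : ((j : ℕ) : ZMod r) = 0 := by
      have h4 : (j • ((0 : Tors p r 1), (1 : ZMod r))).2 = j • (1 : ZMod r) := rfl
      rw [h4, nsmul_eq_mul, mul_one] at h2
      exact h2
    exact (ZMod.natCast_eq_zero_iff j r).1 h3
  · -- generation
    intro m
    refine ⟨m.2.val, ⟨(m.1 : JZero p), congrArg Subtype.val (r_nsmul_tors m.1)⟩, ?_⟩
    refine Prod.ext ?_ ?_
    · show m.1 = m.2.val • (0 : Tors p r 1) + _
      rw [smul_zero, zero_add]
      rfl
    · show m.2 = m.2.val • (1 : ZMod r) + 0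
      rw [add_zero, nsmul_eq_mul, mul_one, ZMod.natCast_zmod_val]
  · -- the action on `W`
    intro σ w w' h
    have h1 : inclE p r w = ((inclE p r w).1, 0) := rfl
    rw [h1, actE_inl]
    refine Prod.ext (Subtype.ext ?_) rfl
    show σ • (w : JZero p) = (w' : JZero p)
    exact h.symm
  · -- the action on `y'`
    intro σ w h
    refine Prod.ext (Subtype.ext ?_) ?_
    · show ((torsAct p r 1 σ (0 : Tors p r 1) + (1 : ZMod r).val • kumE p r y σ : Tors p r 1) :
        JZero p) = (((0 : Tors p r 1) + (inclE p r w).1 : Tors p r 1) : JZero p)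
      rw [ZMod.val_one, one_smul, Submodule.coe_add, Submodule.coe_add, coe_torsAct,
        coe_kumE (hy' σ), Submodule.coe_zero, smul_zero, inclE_fst, h]
    · show (1 : ZMod r) = 1 + 0
      rw [add_zero]

end Fermat.Agent.S15.H531
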