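import Fermat.Agent.A3.H799.Asm

/-!
# S15 / DESC tower T1 (HOPF-E) — abstract part: local coordinates on a TORSOR-type finite module
(helper531)

`A3/H799/Asm.lean` (helper799) gives integral, inertia-equivariant, injective coordinates with
algebraic addition on a finite inertia-stable SUBGROUP `T ⊆ Pic0`.  For the descent (blueprint
`coord/S15-DESC-blueprint.md`, sec. 4, tower T1) we need the same for the extension
`E_x = W ⊕ (ℤ/r)·y` (`r y = x` rational), which is NOT a subgroup of `Pic0`: its elements are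
represented by the points `w + j y`, `0 ≤ j < r`, and the sum of two representatives is the
representative of the sum plus a CONSTANT `ε x`.

Abstract setting (`torsorLocal_of_chart`): a finite additive group `M`, a homomorphism
`π : M →+ Q`, a map of SETS `ρ : M → Pic0` with
`ρ (e + e') = ρ e + ρ e' - γ (π e) (π e')`, `(ρ, π)` jointly injective, and a family of "inertia
elements" `s : Γ` acting on `M` compatibly with `ρ` and trivially on `Q`.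
The subgroup case is `Q = 0`, `ρ` = inclusion, `γ = 0`.

Coordinates: with `tcl e = (π e, [ρ e] mod J¹)`,
* the indicator functions of the fibres of `tcl`;
* on each fibre `d` the chart coordinates `z_i (ρ e - yt d.2)`, `yt c` an inertia-invariant class
  in the class `c` modulo the kernel of reduction `J¹` (LIFTI), extended by `0`.

Everything here is proved; the chart (`ChartStatement`), KER-I and LIFTI are hypotheses here and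
are discharged in `TorsorLocal.lean` from the leaves on main.
-/

set_option autoImplicit false

noncomputable section

open AlgebraicCurve Fermat.Agent.A3.H799

namespace Fermat.Agent.S15.H531

universe u₁ u₂ u₃ u₄ v w x

variable {K : Type u₁} {F : Type u₂} {k : Type u₃} {Fk : Type u₄}
  [Field K] [Field F] [Algebra K F] [Field k] [Field Fk] [Algebra k Fk]

section Coordinates

variable (𝓡 : GoodRed K F k Fk) {M : Type v} [AddCommGroup M] {Q : Type w} [AddCommGroup Q]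
  (π : M →+ Q) (ρ : M → Pic0 K F)

/-- The class of `e`: its image in `Q` and the class of its representative modulo the kernel of
reduction. -/
def tcl (e : M) : Q × (Pic0 K F ⧸ 𝓡.kerRed) := (π e, QuotientAddGroup.mk (ρ e))

/-- The (finite) set of classes. -/
abbrev TCl : Type _ := ↥(Set.range (tcl 𝓡 π ρ))

instance tcl_finite [Finite M] : Finite (TCl 𝓡 π ρ) := Set.finite_range _

variable {𝓡 π ρ}

variable {n : ℕ} (z : 𝓡.kerRed → Fin n → IsLocalRing.maximalIdeal 𝓡.V)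
  (yt : Pic0 K F ⧸ 𝓡.kerRed → Pic0 K F)
  (hmem : ∀ (y : Pic0 K F) (c : Pic0 K F ⧸ 𝓡.kerRed),
    (QuotientAddGroup.mk y : Pic0 K F ⧸ 𝓡.kerRed) = c → y - yt c ∈ 𝓡.kerRed)

theorem tcl_snd {e : M} {d : Q × (Pic0 K F ⧸ 𝓡.kerRed)} (h : tcl 𝓡 π ρ e = d) :
    (QuotientAddGroup.mk (ρ e) : Pic0 K F ⧸ 𝓡.kerRed) = d.2 := by
  rw [← h]; rfl

theorem tcl_fst {e : M} {d : Q × (Pic0 K F ⧸ 𝓡.kerRed)} (h : tcl 𝓡 π ρ e = d) :
    π e = d.1 := by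
  rw [← h]; rfl

variable (π ρ) in
open Classical in
/-- The coordinates: class indicators and chart coordinates on each class. -/
def tpsi (e : M) : (TCl 𝓡 π ρ) ⊕ (TCl 𝓡 π ρ) × Fin n → K
  | Sum.inl d => if tcl 𝓡 π ρ e = (d : Q × (Pic0 K F ⧸ 𝓡.kerRed)) then 1 else 0
  | Sum.inr (d, i) =>
      if h : tcl 𝓡 π ρ e = (d : Q × (Pic0 K F ⧸ 𝓡.kerRed)) then
        (((z ⟨ρ e - yt (d : Q × (Pic0 K F ⧸ 𝓡.kerRed)).2, hmem (ρ e) _ (tcl_snd h)⟩ i :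
          IsLocalRing.maximalIdeal 𝓡.V) : 𝓡.V) : K)
      else 0

open Classical in
theorem tpsi_inl (e : M) (d : TCl 𝓡 π ρ) :
    tpsi π ρ z yt hmem e (Sum.inl d) =
      if tcl 𝓡 π ρ e = (d : Q × (Pic0 K F ⧸ 𝓡.kerRed)) then 1 else 0 := by
  simp only [tpsi]

open Classical in
theorem tpsi_inr_pos (e : M) (d : TCl 𝓡 π ρ) (i : Fin n)
    (h : tcl 𝓡 π ρ e = (d : Q × (Pic0 K F ⧸ 𝓡.kerRed))) :
    tpsi π ρ z yt hmem e (Sum.inr (d, i)) =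
      (((z ⟨ρ e - yt (d : Q × (Pic0 K F ⧸ 𝓡.kerRed)).2, hmem (ρ e) _ (tcl_snd h)⟩ i :
          IsLocalRing.maximalIdeal 𝓡.V) : 𝓡.V) : K) := by
  simp only [tpsi]
  rw [dif_pos h]

open Classical in
theorem tpsi_inr_neg (e : M) (d : TCl 𝓡 π ρ) (i : Fin n)
    (h : ¬ tcl 𝓡 π ρ e = (d : Q × (Pic0 K F ⧸ 𝓡.kerRed))) :
    tpsi π ρ z yt hmem e (Sum.inr (d, i)) = 0 := by
  simp only [tpsi]
  rw [dif_neg h]

open Classical in
theorem tpsi_mem (e : M) (j : (TCl 𝓡 π ρ) ⊕ (TCl 𝓡 π ρ) × Fin n) :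
    tpsi π ρ z yt hmem e j ∈ 𝓡.V := by
  rcases j with d | ⟨d, i⟩
  · rw [tpsi_inl]
    split_ifs
    · exact 𝓡.V.one_mem
    · exact 𝓡.V.zero_mem
  · by_cases h : tcl 𝓡 π ρ e = (d : Q × (Pic0 K F ⧸ 𝓡.kerRed))
    · rw [tpsi_inr_pos z yt hmem e d i h]
      exact Subtype.coe_prop _
    · rw [tpsi_inr_neg z yt hmem e d i h]
      exact 𝓡.V.zero_mem

/-- The class of `e` as an element of `TCl`. -/
def tclMk (e : M) : TCl 𝓡 π ρ := ⟨tcl 𝓡 π ρ e, e, rfl⟩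

open Classical in
theorem tpsi_injective (hz : Function.Injective z)
    (H4 : ∀ e e' : M, ρ e = ρ e' → π e = π e' → e = e') :
    Function.Injective (tpsi π ρ z yt hmem : M → _) := by
  intro e e' h
  have h1 := congrFun h (Sum.inl (tclMk (𝓡 := 𝓡) (π := π) (ρ := ρ) e))
  have hmk : tcl 𝓡 π ρ e = ((tclMk (𝓡 := 𝓡) (π := π) (ρ := ρ) e : TCl 𝓡 π ρ) :
      Q × (Pic0 K F ⧸ 𝓡.kerRed)) := rfl
  rw [tpsi_inl, tpsi_inl, if_pos hmk] at h1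
  have hc : tcl 𝓡 π ρ e' = tcl 𝓡 π ρ e := by
    by_contra hne
    have hne' : ¬ tcl 𝓡 π ρ e' =
        ((tclMk (𝓡 := 𝓡) (π := π) (ρ := ρ) e : TCl 𝓡 π ρ) :
          Q × (Pic0 K F ⧸ 𝓡.kerRed)) := hne
    rw [if_neg hne'] at h1
    exact one_ne_zero h1
  have hπ : π e = π e' := (congrArg Prod.fst hc).symm
  have h2 : z ⟨ρ e - yt (tcl 𝓡 π ρ e).2, hmem (ρ e) _ rfl⟩ =
      z ⟨ρ e' - yt (tcl 𝓡 π ρ e).2, hmem (ρ e') _ (tcl_snd hc)⟩ := by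
    funext i
    have h3 := congrFun h (Sum.inr (tclMk (𝓡 := 𝓡) (π := π) (ρ := ρ) e, i))
    rw [tpsi_inr_pos z yt hmem e _ i rfl, tpsi_inr_pos z yt hmem e' _ i hc] at h3
    exact Subtype.ext (Subtype.ext h3)
  have h4 := congrArg Subtype.val (hz h2)
  simp only [sub_left_inj] at h4
  exact H4 e e' h4 hπ

open Classical in
theorem tpsi_smul (hker : ∀ g ∈ 𝓡.I, ∀ y : Pic0 K F, g • y - y ∈ 𝓡.kerRed)
    (hyI : ∀ c, ∀ g ∈ 𝓡.I, g • yt c = yt c)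
    (hzeq : ∀ g ∈ 𝓡.I, ∀ (u : 𝓡.kerRed) (hgu : g • (u : Pic0 K F) ∈ 𝓡.kerRed) (i : Fin n),
      (((z ⟨g • (u : Pic0 K F), hgu⟩ i : IsLocalRing.maximalIdeal 𝓡.V) : 𝓡.V) : K) =
        SemilinearAut.baseAut g (((z u i : IsLocalRing.maximalIdeal 𝓡.V) : 𝓡.V) : K))
    (g : SemilinearAut K F) (hg : g ∈ 𝓡.I) (e e' : M) (hρ : ρ e' = g • ρ e) (hπ : π e' = π e)
    (j : (TCl 𝓡 π ρ) ⊕ (TCl 𝓡 π ρ) × Fin n) :
    tpsi π ρ z yt hmem e' j = SemilinearAut.baseAut g (tpsi π ρ z yt hmem e j) := by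
  have hmk : tcl 𝓡 π ρ e' = tcl 𝓡 π ρ e := by
    refine Prod.ext hπ ?_
    show (QuotientAddGroup.mk (ρ e') : Pic0 K F ⧸ 𝓡.kerRed) = QuotientAddGroup.mk (ρ e)
    rw [hρ, QuotientAddGroup.eq]
    have h1 := hker g hg (ρ e)
    have h2 : -(g • ρ e) + ρ e = -(g • ρ e - ρ e) := by abel
    rw [h2]
    exact neg_mem h1
  rcases j with d | ⟨d, i⟩
  · rw [tpsi_inl, tpsi_inl, hmk]
    split_ifs
    · rw [map_one]
    · rw [map_zero]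
  · by_cases h : tcl 𝓡 π ρ e = (d : Q × (Pic0 K F ⧸ 𝓡.kerRed))
    · have h' : tcl 𝓡 π ρ e' = (d : Q × (Pic0 K F ⧸ 𝓡.kerRed)) := by rw [hmk, h]
      rw [tpsi_inr_pos z yt hmem e' d i h', tpsi_inr_pos z yt hmem e d i h]
      have heq : g • (ρ e - yt (d : Q × (Pic0 K F ⧸ 𝓡.kerRed)).2) =
          ρ e' - yt (d : Q × (Pic0 K F ⧸ 𝓡.kerRed)).2 := by
        rw [smul_sub, hyI _ g hg, hρ]
      have hgu : g • (ρ e - yt (d : Q × (Pic0 K F ⧸ 𝓡.kerRed)).2) ∈ 𝓡.kerRed := by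
        rw [heq]
        exact hmem _ _ (tcl_snd h')
      rw [← hzeq g hg ⟨ρ e - yt (d : Q × (Pic0 K F ⧸ 𝓡.kerRed)).2,
        hmem _ _ (tcl_snd h)⟩ hgu i]
      congr 4
      exact heq.symm
    · have h' : ¬ tcl 𝓡 π ρ e' = (d : Q × (Pic0 K F ⧸ 𝓡.kerRed)) := by
        rw [hmk]; exact h
      rw [tpsi_inr_neg z yt hmem e' d i h', tpsi_inr_neg z yt hmem e d i h, map_zero]

open Classical in
/-- Partition of unity by the boxes. -/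
theorem tmem_of_forall_box [Finite M] (𝒜 : Subalgebra 𝓡.V (M × M → K)) (G : M × M → K)
    (h : ∀ d₁ d₂ : TCl 𝓡 π ρ, (fun p : M × M =>
      ((if tcl 𝓡 π ρ p.1 = (d₁ : Q × (Pic0 K F ⧸ 𝓡.kerRed)) then (1 : K) else 0) *
        (if tcl 𝓡 π ρ p.2 = (d₂ : Q × (Pic0 K F ⧸ 𝓡.kerRed)) then (1 : K) else 0)) * G p) ∈ 𝒜) :
    G ∈ 𝒜 := by
  let _ : Fintype (TCl 𝓡 π ρ) := Fintype.ofFinite _
  have hsum : ∀ e : M, (∑ d : TCl 𝓡 π ρ,
      (if tcl 𝓡 π ρ e = (d : Q × (Pic0 K F ⧸ 𝓡.kerRed)) then (1 : K) else 0)) = 1 := by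
    intro e
    rw [Finset.sum_eq_single (tclMk (𝓡 := 𝓡) (π := π) (ρ := ρ) e)]
    · exact if_pos rfl
    · intro d _ hd
      refine if_neg fun hh => hd ?_
      exact Subtype.ext hh.symm
    · intro hh
      exact absurd (Finset.mem_univ _) hh
  have hG : G = ∑ d₁ : TCl 𝓡 π ρ, ∑ d₂ : TCl 𝓡 π ρ, (fun p : M × M =>
      ((if tcl 𝓡 π ρ p.1 = (d₁ : Q × (Pic0 K F ⧸ 𝓡.kerRed)) then (1 : K) else 0) *
        (if tcl 𝓡 π ρ p.2 = (d₂ : Q × (Pic0 K F ⧸ 𝓡.kerRed)) then (1 : K) else 0)) * G p) := by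
    funext p
    simp only [Finset.sum_apply]
    simp only [← Finset.sum_mul, ← Finset.mul_sum]
    rw [hsum p.1, hsum p.2, one_mul, one_mul]
  rw [hG]
  exact Subalgebra.sum_mem _ fun d₁ _ => Subalgebra.sum_mem _ fun d₂ _ => h d₁ d₂

open Classical in
theorem tpsi_add_mem [Finite M] (γ : Q → Q → Pic0 K F)
    (H1 : ∀ e e' : M, ρ (e + e') = ρ e + ρ e' - γ (π e) (π e'))
    (hzadd : ∀ (Λ : Subalgebra 𝓡.V (M × M → 𝓡.V)) (a b : M × M → 𝓡.kerRed),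
      (∀ j, (fun τ => ((z (a τ) j : IsLocalRing.maximalIdeal 𝓡.V) : 𝓡.V)) ∈ Λ) →
      (∀ j, (fun τ => ((z (b τ) j : IsLocalRing.maximalIdeal 𝓡.V) : 𝓡.V)) ∈ Λ) →
      ∀ i, (fun τ => ((z (a τ + b τ) i : IsLocalRing.maximalIdeal 𝓡.V) : 𝓡.V)) ∈ Λ)
    (j : (TCl 𝓡 π ρ) ⊕ (TCl 𝓡 π ρ) × Fin n) :
    (fun p : M × M => tpsi π ρ z yt hmem (p.1 + p.2) j) ∈
      Algebra.adjoin 𝓡.V ({f | ∃ j, f = fun p : M × M => tpsi π ρ z yt hmem p.1 j} ∪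
        {f | ∃ j, f = fun p : M × M => tpsi π ρ z yt hmem p.2 j}) := by
  set 𝒜 := Algebra.adjoin 𝓡.V ({f | ∃ j, f = fun p : M × M => tpsi π ρ z yt hmem p.1 j} ∪
        {f | ∃ j, f = fun p : M × M => tpsi π ρ z yt hmem p.2 j}) with h𝒜
  have g1 : ∀ j, (fun p : M × M => tpsi π ρ z yt hmem p.1 j) ∈ 𝒜 :=
    fun j => Algebra.subset_adjoin (Or.inl ⟨j, rfl⟩)
  have g2 : ∀ j, (fun p : M × M => tpsi π ρ z yt hmem p.2 j) ∈ 𝒜 :=
    fun j => Algebra.subset_adjoin (Or.inr ⟨j, rfl⟩)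
  -- the class of a sum
  have hcl : ∀ e e' : M, tcl 𝓡 π ρ (e + e') =
      tcl 𝓡 π ρ e + tcl 𝓡 π ρ e' -
        (0, (QuotientAddGroup.mk (γ (π e) (π e')) : Pic0 K F ⧸ 𝓡.kerRed)) := by
    intro e e'
    refine Prod.ext ?_ ?_
    · show π (e + e') = π e + π e' - 0
      rw [map_add, sub_zero]
    · show (QuotientAddGroup.mk (ρ (e + e')) : Pic0 K F ⧸ 𝓡.kerRed) =
        QuotientAddGroup.mk (ρ e) + QuotientAddGroup.mk (ρ e') -
          QuotientAddGroup.mk (γ (π e) (π e'))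
      rw [H1]
      rfl
  -- the box idempotents
  have hbox : ∀ d₁ d₂ : TCl 𝓡 π ρ, (fun p : M × M =>
      (if tcl 𝓡 π ρ p.1 = (d₁ : Q × (Pic0 K F ⧸ 𝓡.kerRed)) then (1 : K) else 0) *
        (if tcl 𝓡 π ρ p.2 = (d₂ : Q × (Pic0 K F ⧸ 𝓡.kerRed)) then (1 : K) else 0)) ∈ 𝒜 := by
    intro d₁ d₂
    have := 𝒜.mul_mem (g1 (Sum.inl d₁)) (g2 (Sum.inl d₂))
    simp only [tpsi_inl] at this
    exact this
  have hidem : ∀ d₁ d₂ : TCl 𝓡 π ρ, (fun p : M × M =>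
      (if tcl 𝓡 π ρ p.1 = (d₁ : Q × (Pic0 K F ⧸ 𝓡.kerRed)) then (1 : K) else 0) *
        (if tcl 𝓡 π ρ p.2 = (d₂ : Q × (Pic0 K F ⧸ 𝓡.kerRed)) then (1 : K) else 0)) *
      (fun p : M × M =>
      (if tcl 𝓡 π ρ p.1 = (d₁ : Q × (Pic0 K F ⧸ 𝓡.kerRed)) then (1 : K) else 0) *
        (if tcl 𝓡 π ρ p.2 = (d₂ : Q × (Pic0 K F ⧸ 𝓡.kerRed)) then (1 : K) else 0)) =
      (fun p : M × M =>
      (if tcl 𝓡 π ρ p.1 = (d₁ : Q × (Pic0 K F ⧸ 𝓡.kerRed)) then (1 : K) else 0) *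
        (if tcl 𝓡 π ρ p.2 = (d₂ : Q × (Pic0 K F ⧸ 𝓡.kerRed)) then (1 : K) else 0)) := by
    intro d₁ d₂
    funext p
    simp only [Pi.mul_apply]
    split_ifs <;> simp
  -- the class of the sum on the box `(d₁, d₂)`
  let dsum : TCl 𝓡 π ρ → TCl 𝓡 π ρ → Q × (Pic0 K F ⧸ 𝓡.kerRed) := fun d₁ d₂ =>
    (d₁ : Q × (Pic0 K F ⧸ 𝓡.kerRed)) + (d₂ : Q × (Pic0 K F ⧸ 𝓡.kerRed)) -
      (0, (QuotientAddGroup.mk
        (γ (d₁ : Q × (Pic0 K F ⧸ 𝓡.kerRed)).1 (d₂ : Q × (Pic0 K F ⧸ 𝓡.kerRed)).1) :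
          Pic0 K F ⧸ 𝓡.kerRed))
  have hdsum : ∀ (d₁ d₂ : TCl 𝓡 π ρ) (p : M × M),
      tcl 𝓡 π ρ p.1 = (d₁ : Q × (Pic0 K F ⧸ 𝓡.kerRed)) →
      tcl 𝓡 π ρ p.2 = (d₂ : Q × (Pic0 K F ⧸ 𝓡.kerRed)) →
      tcl 𝓡 π ρ (p.1 + p.2) = dsum d₁ d₂ := by
    intro d₁ d₂ p h1 h2
    rw [hcl, tcl_fst h1, tcl_fst h2, h1, h2]
  -- the key lemma on a box
  have hkey : ∀ (d₁ d₂ d : TCl 𝓡 π ρ) (i : Fin n),
      (d : Q × (Pic0 K F ⧸ 𝓡.kerRed)) = dsum d₁ d₂ → (fun p : M × M =>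
      ((if tcl 𝓡 π ρ p.1 = (d₁ : Q × (Pic0 K F ⧸ 𝓡.kerRed)) then (1 : K) else 0) *
        (if tcl 𝓡 π ρ p.2 = (d₂ : Q × (Pic0 K F ⧸ 𝓡.kerRed)) then (1 : K) else 0)) *
        tpsi π ρ z yt hmem (p.1 + p.2) (Sum.inr (d, i))) ∈ 𝒜 := by
    intro d₁ d₂ d i hd
    set Λ := boxAlg 𝒜 _ (hidem d₁ d₂) (hbox d₁ d₂) with hΛ
    -- the families
    let a : M × M → 𝓡.kerRed := fun p =>
      if h : tcl 𝓡 π ρ p.1 = (d₁ : Q × (Pic0 K F ⧸ 𝓡.kerRed)) then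
        ⟨ρ p.1 - yt (d₁ : Q × (Pic0 K F ⧸ 𝓡.kerRed)).2, hmem _ _ (tcl_snd h)⟩ else 0
    let b : M × M → 𝓡.kerRed := fun p =>
      if h : tcl 𝓡 π ρ p.2 = (d₂ : Q × (Pic0 K F ⧸ 𝓡.kerRed)) then
        ⟨ρ p.2 - yt (d₂ : Q × (Pic0 K F ⧸ 𝓡.kerRed)).2, hmem _ _ (tcl_snd h)⟩ else 0
    have hc₀ : yt (d₁ : Q × (Pic0 K F ⧸ 𝓡.kerRed)).2 + yt (d₂ : Q × (Pic0 K F ⧸ 𝓡.kerRed)).2 -
        γ (d₁ : Q × (Pic0 K F ⧸ 𝓡.kerRed)).1 (d₂ : Q × (Pic0 K F ⧸ 𝓡.kerRed)).1 -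
        yt (d : Q × (Pic0 K F ⧸ 𝓡.kerRed)).2 ∈ 𝓡.kerRed := by
      -- representatives of the classes
      have h1 := hmem (Quotient.out (d₁ : Q × (Pic0 K F ⧸ 𝓡.kerRed)).2) _
        (QuotientAddGroup.out_eq' _)
      have h2 := hmem (Quotient.out (d₂ : Q × (Pic0 K F ⧸ 𝓡.kerRed)).2) _
        (QuotientAddGroup.out_eq' _)
      have h3 := hmem (Quotient.out (d₁ : Q × (Pic0 K F ⧸ 𝓡.kerRed)).2 +
          Quotient.out (d₂ : Q × (Pic0 K F ⧸ 𝓡.kerRed)).2 -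
          γ (d₁ : Q × (Pic0 K F ⧸ 𝓡.kerRed)).1 (d₂ : Q × (Pic0 K F ⧸ 𝓡.kerRed)).1)
        (d : Q × (Pic0 K F ⧸ 𝓡.kerRed)).2 (by
          rw [hd]
          show (QuotientAddGroup.mk _ : Pic0 K F ⧸ 𝓡.kerRed) =
            (d₁ : Q × (Pic0 K F ⧸ 𝓡.kerRed)).2 + (d₂ : Q × (Pic0 K F ⧸ 𝓡.kerRed)).2 -
              QuotientAddGroup.mk _
          rw [QuotientAddGroup.mk_sub, QuotientAddGroup.mk_add, QuotientAddGroup.out_eq',
            QuotientAddGroup.out_eq'])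
      have h4 : yt (d₁ : Q × (Pic0 K F ⧸ 𝓡.kerRed)).2 +
          yt (d₂ : Q × (Pic0 K F ⧸ 𝓡.kerRed)).2 -
          γ (d₁ : Q × (Pic0 K F ⧸ 𝓡.kerRed)).1 (d₂ : Q × (Pic0 K F ⧸ 𝓡.kerRed)).1 -
          yt (d : Q × (Pic0 K F ⧸ 𝓡.kerRed)).2 =
          ((Quotient.out (d₁ : Q × (Pic0 K F ⧸ 𝓡.kerRed)).2 +
            Quotient.out (d₂ : Q × (Pic0 K F ⧸ 𝓡.kerRed)).2 -
            γ (d₁ : Q × (Pic0 K F ⧸ 𝓡.kerRed)).1 (d₂ : Q × (Pic0 K F ⧸ 𝓡.kerRed)).1) -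
            yt (d : Q × (Pic0 K F ⧸ 𝓡.kerRed)).2) -
          (Quotient.out (d₁ : Q × (Pic0 K F ⧸ 𝓡.kerRed)).2 -
            yt (d₁ : Q × (Pic0 K F ⧸ 𝓡.kerRed)).2) -
          (Quotient.out (d₂ : Q × (Pic0 K F ⧸ 𝓡.kerRed)).2 -
            yt (d₂ : Q × (Pic0 K F ⧸ 𝓡.kerRed)).2) := by
        abel
      rw [h4]
      exact sub_mem (sub_mem h3 h1) h2
    let c₀ : M × M → 𝓡.kerRed := fun _ => ⟨_, hc₀⟩
    have ha : ∀ j, (fun τ => ((z (a τ) j : IsLocalRing.maximalIdeal 𝓡.V) : 𝓡.V)) ∈ Λ := by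
      intro j
      rw [hΛ, mem_boxAlg]
      have := 𝒜.mul_mem (g2 (Sum.inl d₂)) (g1 (Sum.inr (d₁, j)))
      convert this using 1
      funext p
      simp only [Pi.mul_apply, tpsi_inl]
      by_cases h : tcl 𝓡 π ρ p.1 = (d₁ : Q × (Pic0 K F ⧸ 𝓡.kerRed))
      · rw [tpsi_inr_pos z yt hmem p.1 d₁ j h, if_pos h, one_mul]
        simp only [a, dif_pos h]
        rfl
      · rw [tpsi_inr_neg z yt hmem p.1 d₁ j h, if_neg h]
        simp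
    have hb : ∀ j, (fun τ => ((z (b τ) j : IsLocalRing.maximalIdeal 𝓡.V) : 𝓡.V)) ∈ Λ := by
      intro j
      rw [hΛ, mem_boxAlg]
      have := 𝒜.mul_mem (g1 (Sum.inl d₁)) (g2 (Sum.inr (d₂, j)))
      convert this using 1
      funext p
      simp only [Pi.mul_apply, tpsi_inl]
      by_cases h : tcl 𝓡 π ρ p.2 = (d₂ : Q × (Pic0 K F ⧸ 𝓡.kerRed))
      · rw [tpsi_inr_pos z yt hmem p.2 d₂ j h, if_pos h, mul_one]
        simp only [b, dif_pos h]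
        rfl
      · rw [tpsi_inr_neg z yt hmem p.2 d₂ j h, if_neg h]
        simp
    have hc : ∀ j, (fun τ => ((z (c₀ τ) j : IsLocalRing.maximalIdeal 𝓡.V) : 𝓡.V)) ∈ Λ := by
      intro j
      exact Λ.algebraMap_mem ((z ⟨_, hc₀⟩ j : IsLocalRing.maximalIdeal 𝓡.V) : 𝓡.V)
    have hab := hzadd Λ a b ha hb
    have habc := hzadd Λ (fun τ => a τ + b τ) c₀ hab hc i
    rw [hΛ, mem_boxAlg] at habc
    convert habc using 1
    funext p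
    by_cases h1 : tcl 𝓡 π ρ p.1 = (d₁ : Q × (Pic0 K F ⧸ 𝓡.kerRed))
    · by_cases h2 : tcl 𝓡 π ρ p.2 = (d₂ : Q × (Pic0 K F ⧸ 𝓡.kerRed))
      · have h12 : tcl 𝓡 π ρ (p.1 + p.2) = (d : Q × (Pic0 K F ⧸ 𝓡.kerRed)) := by
          rw [hd]; exact hdsum d₁ d₂ p h1 h2
        rw [tpsi_inr_pos z yt hmem _ _ i h12]
        congr 5
        simp only [a, b, c₀, dif_pos h1, dif_pos h2, AddSubgroup.coe_add]
        rw [H1, tcl_fst h1, tcl_fst h2]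
        abel
      · simp [h2]
    · simp [h1]
  -- conclusion
  apply tmem_of_forall_box (π := π) (ρ := ρ)
  intro d₁ d₂
  rcases j with d | ⟨d, i⟩
  · have hfun : (fun p : M × M =>
        ((if tcl 𝓡 π ρ p.1 = (d₁ : Q × (Pic0 K F ⧸ 𝓡.kerRed)) then (1 : K) else 0) *
          (if tcl 𝓡 π ρ p.2 = (d₂ : Q × (Pic0 K F ⧸ 𝓡.kerRed)) then (1 : K) else 0)) *
          tpsi π ρ z yt hmem (p.1 + p.2) (Sum.inl d)) =
        if dsum d₁ d₂ = (d : Q × (Pic0 K F ⧸ 𝓡.kerRed)) then (fun p : M × M =>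
          (if tcl 𝓡 π ρ p.1 = (d₁ : Q × (Pic0 K F ⧸ 𝓡.kerRed)) then (1 : K) else 0) *
            (if tcl 𝓡 π ρ p.2 = (d₂ : Q × (Pic0 K F ⧸ 𝓡.kerRed)) then (1 : K) else 0)) else 0 := by
      funext p
      rw [tpsi_inl]
      by_cases h1 : tcl 𝓡 π ρ p.1 = (d₁ : Q × (Pic0 K F ⧸ 𝓡.kerRed))
      · by_cases h2 : tcl 𝓡 π ρ p.2 = (d₂ : Q × (Pic0 K F ⧸ 𝓡.kerRed))
        · rw [hdsum d₁ d₂ p h1 h2]
          by_cases hcc : dsum d₁ d₂ = (d : Q × (Pic0 K F ⧸ 𝓡.kerRed))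
          · simp [h1, h2, hcc]
          · simp [h1, h2, hcc]
        · by_cases hcc : dsum d₁ d₂ = (d : Q × (Pic0 K F ⧸ 𝓡.kerRed))
          · simp [h2, hcc]
          · simp [h2, hcc]
      · by_cases hcc : dsum d₁ d₂ = (d : Q × (Pic0 K F ⧸ 𝓡.kerRed))
        · simp [h1, hcc]
        · simp [h1, hcc]
    rw [hfun]
    split_ifs
    · exact hbox d₁ d₂
    · exact 𝒜.zero_mem
  · by_cases hcc : (d : Q × (Pic0 K F ⧸ 𝓡.kerRed)) = dsum d₁ d₂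
    · exact hkey d₁ d₂ d i hcc
    · have hfun : (fun p : M × M =>
        ((if tcl 𝓡 π ρ p.1 = (d₁ : Q × (Pic0 K F ⧸ 𝓡.kerRed)) then (1 : K) else 0) *
          (if tcl 𝓡 π ρ p.2 = (d₂ : Q × (Pic0 K F ⧸ 𝓡.kerRed)) then (1 : K) else 0)) *
          tpsi π ρ z yt hmem (p.1 + p.2) (Sum.inr (d, i))) = 0 := by
        funext p
        by_cases h1 : tcl 𝓡 π ρ p.1 = (d₁ : Q × (Pic0 K F ⧸ 𝓡.kerRed))
        · by_cases h2 : tcl 𝓡 π ρ p.2 = (d₂ : Q × (Pic0 K F ⧸ 𝓡.kerRed))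
          · have h12 : ¬ tcl 𝓡 π ρ (p.1 + p.2) = (d : Q × (Pic0 K F ⧸ 𝓡.kerRed)) := by
              rw [hdsum d₁ d₂ p h1 h2]
              exact fun hh => hcc hh.symm
            rw [tpsi_inr_neg z yt hmem _ _ i h12]
            simp
          · simp [h2]
        · simp [h1]
      rw [hfun]
      exact 𝒜.zero_mem

end Coordinates

section Main

/-- **Torsor assembly.**  CHART + KER-I + LIFTI ⟹ integral, inertia-equivariant, injective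
coordinates with algebraic addition on a finite module `M` presented by representatives
`ρ : M → Pic0` which are additive up to the constants `γ`. -/
theorem torsorLocal_of_chart (hchart : ChartStatement.{u₁, u₂, u₃, u₄, v} K F k Fk)
    (hker : KerInertiaStatement K F k Fk) (hlift : LiftiStatement K F k Fk)
    (𝓡 : GoodRed K F k Fk) {M : Type v} [AddCommGroup M] [Finite M]
    {Q : Type w} [AddCommGroup Q] (π : M →+ Q) (ρ : M → Pic0 K F) (γ : Q → Q → Pic0 K F)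
    {Γ : Type x} (gΓ : Γ → SemilinearAut K F) (hΓ : ∀ s, gΓ s ∈ 𝓡.I) (act : Γ → M → M)
    (H1 : ∀ e e' : M, ρ (e + e') = ρ e + ρ e' - γ (π e) (π e'))
    (H3 : ∀ s e, ρ (act s e) = gΓ s • ρ e)
    (H3' : ∀ s e, π (act s e) = π e)
    (H4 : ∀ e e' : M, ρ e = ρ e' → π e = π e' → e = e') :
    ∃ (ι : Type) (_ : Finite ι) (Ψ : M → ι → K),
      Function.Injective Ψ ∧ (∀ e i, Ψ e i ∈ 𝓡.V) ∧
      (∀ s e i, Ψ (act s e) i = SemilinearAut.baseAut (gΓ s) (Ψ e i)) ∧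
      ∀ i, (fun p : M × M => Ψ (p.1 + p.2) i) ∈
        Algebra.adjoin 𝓡.V ({f | ∃ j, f = fun p : M × M => Ψ p.1 j} ∪
          {f | ∃ j, f = fun p : M × M => Ψ p.2 j}) := by
  classical
  obtain ⟨n, z, hzinj, hzeq, hzadd⟩ := hchart 𝓡
  have hl : ∀ c : Pic0 K F ⧸ 𝓡.kerRed, ∃ y : Pic0 K F, (∀ g ∈ 𝓡.I, g • y = y) ∧
      (Quotient.out c : Pic0 K F) - y ∈ 𝓡.kerRed := fun c => hlift 𝓡 _
  choose yt hyI hyJ using hl
  have hmem : ∀ (y : Pic0 K F) (c : Pic0 K F ⧸ 𝓡.kerRed),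
      (QuotientAddGroup.mk y : Pic0 K F ⧸ 𝓡.kerRed) = c → y - yt c ∈ 𝓡.kerRed := by
    intro y c h
    have h1 : y - (Quotient.out c : Pic0 K F) ∈ 𝓡.kerRed := by
      have h0 : (QuotientAddGroup.mk (Quotient.out c : Pic0 K F) : Pic0 K F ⧸ 𝓡.kerRed) =
          QuotientAddGroup.mk y := by
        rw [QuotientAddGroup.out_eq', h]
      rw [QuotientAddGroup.eq] at h0
      have h2 : y - (Quotient.out c : Pic0 K F) = -(Quotient.out c : Pic0 K F) + y := by abel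
      rw [h2]
      exact h0
    have h2 : y - yt c = (y - (Quotient.out c : Pic0 K F)) +
        ((Quotient.out c : Pic0 K F) - yt c) := by abel
    rw [h2]
    exact add_mem h1 (hyJ c)
  -- the index type
  have : Finite (TCl 𝓡 π ρ) := tcl_finite 𝓡 π ρ
  have : Finite ((TCl 𝓡 π ρ) ⊕ (TCl 𝓡 π ρ) × Fin n) := inferInstance
  obtain ⟨m, ⟨e⟩⟩ := Finite.exists_equiv_fin ((TCl 𝓡 π ρ) ⊕ (TCl 𝓡 π ρ) × Fin n)
  refine ⟨Fin m, inferInstance, fun x i => tpsi π ρ z yt hmem x (e.symm i), ?_, ?_, ?_, ?_⟩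
  · intro x x' h
    apply tpsi_injective z yt hmem hzinj H4
    funext j
    have := congrFun h (e j)
    simpa using this
  · intro x i
    exact tpsi_mem z yt hmem x _
  · intro s x i
    exact tpsi_smul z yt hmem (hker 𝓡) hyI hzeq (gΓ s) (hΓ s) x (act s x) (H3 s x) (H3' s x) _
  · intro i
    have := tpsi_add_mem z yt hmem γ H1 (fun Λ a b => hzadd (M × M) Λ a b) (e.symm i)
    refine Algebra.adjoin_mono ?_ this
    rintro f (⟨j, rfl⟩ | ⟨j, rfl⟩)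
    · left
      exact ⟨e j, by simp⟩
    · right
      exact ⟨e j, by simp⟩

end Main

end Fermat.Agent.S15.H531
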