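import Fermat.Agent.S15.H531.TorsorAsm
import Fermat.Agent.A3.H799.LocalFinal
import Fermat.Agent.A3.H255.Det

/-!
# S15 / DESC tower T1 (HOPF-E) — the abstract torsor LOCAL theorem, unconditionally (helper531)

`torsorLocal` = `torsorLocal_of_chart` with CHART, KER-I, LIFTI discharged by the leaves of the
A3 / LOCAL block on main (helper799, helper255, helper555, helper75).
-/

set_option autoImplicit false

noncomputable section

open AlgebraicCurve Fermat.Agent.A3.H799

namespace Fermat.Agent.S15.H531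

universe u₁ u₂ u₃ u₄ v w x

variable {K : Type u₁} {F : Type u₂} {k : Type u₃} {Fk : Type u₄}
  [Field K] [Field F] [Algebra K F] [Field k] [Field Fk] [Algebra k Fk]

/-- **Abstract torsor LOCAL theorem.**  For every abstract good reduction datum: a finite module
`M` presented by representatives `ρ : M → Pic0`, additive up to constants `γ` depending only on the
images in `Q`, has integral, inertia-equivariant, injective coordinates with algebraic addition. -/
theorem torsorLocal [IsAlgClosed K] [IsAlgClosed k] [CharZero K]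
    (𝓡 : GoodRed K F k Fk) {M : Type v} [AddCommGroup M] [Finite M]
    {Q : Type w} [AddCommGroup Q] (π : M →+ Q) (ρ : M → Pic0 K F) (γ : Q → Q → Pic0 K F)
    {Γ : Type x} (gΓ : Γ → SemilinearAut K F) (hΓ : ∀ s, gΓ s ∈ 𝓡.I) (act : Γ → M → M)
    (H1 : ∀ e e' : M, ρ (e + e') = ρ e + ρ e' - γ (π e) (π e'))
    (H3 : ∀ s e, ρ (act s e) = gΓ s • ρ e)
    (H3' : ∀ s e, π (act s e) = π e)
    (H4 : ∀ e e' : M, ρ e = ρ e' → π e = π e' → e = e') :
    ∃ (ι : Type) (_ : Finite ι) (Ψ : M → ι → K),
      Function.Injective Ψ ∧ (∀ e i, Ψ e i ∈ 𝓡.V) ∧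
      (∀ s e i, Ψ (act s e) i = SemilinearAut.baseAut (gΓ s) (Ψ e i)) ∧
      ∀ i, (fun p : M × M => Ψ (p.1 + p.2) i) ∈
        Algebra.adjoin 𝓡.V ({f | ∃ j, f = fun p : M × M => Ψ p.1 j} ∪
          {f | ∃ j, f = fun p : M × M => Ψ p.2 j}) :=
  torsorLocal_of_chart (chartStatement_of_det Fermat.Agent.A3.H255.Det.detStatement)
    Fermat.Agent.A3.H555.kerInertiaStatement
    (Fermat.Agent.A3.H555.liftiStatement_of_disc (Fermat.Agent.A3.H75.discStatement K F k Fk)
      Fermat.Agent.A3.H555.discEquivStatement)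
    𝓡 π ρ γ gΓ hΓ act H1 H3 H3' H4

end Fermat.Agent.S15.H531
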